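import Mathlib
import Fermat.Prelude.Def_ModularCurve_X0ModL

/-!
# GATE-J / J1-HAUPT-MEM : leading-term calculus for Laurent series

`LowAt n x` : all coefficients of `x` below `n` vanish.  Products: the coefficient of `x * y`
at `n + m` is the product of the coefficients at `n` and `m`.  Facts for `jqModC K` and
`qExpand K M (jqModC K)`.
-/

set_option autoImplicit false

noncomputable section

namespace Fermat.Agent.GJ.HauptMem

open HahnSeries ModularCurve

variable {K : Type*} [CommRing K]

/-- all coefficients of `x` of index `< n` vanish -/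
def LowAt (n : ℤ) (x : LaurentSeries K) : Prop := ∀ k < n, x.coeff k = 0

theorem LowAt.mono {n m : ℤ} {x : LaurentSeries K} (h : LowAt n x) (hmn : m ≤ n) : LowAt m x :=
  fun k hk => h k (lt_of_lt_of_le hk hmn)

theorem LowAt.add {n : ℤ} {x y : LaurentSeries K} (hx : LowAt n x) (hy : LowAt n y) :
    LowAt n (x + y) := fun k hk => by
  rw [HahnSeries.coeff_add, hx k hk, hy k hk, add_zero]

theorem LowAt.sub {n : ℤ} {x y : LaurentSeries K} (hx : LowAt n x) (hy : LowAt n y) :
    LowAt n (x - y) := fun k hk => by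
  rw [HahnSeries.coeff_sub, hx k hk, hy k hk, sub_zero]

theorem LowAt.neg {n : ℤ} {x : LaurentSeries K} (hx : LowAt n x) : LowAt n (-x) := fun k hk => by
  rw [HahnSeries.coeff_neg, hx k hk, neg_zero]

theorem lowAt_C (c : K) : LowAt 0 (HahnSeries.C c : LaurentSeries K) := fun k hk => by
  rw [HahnSeries.C_apply, HahnSeries.coeff_single_of_ne (ne_of_lt hk)]

theorem coeff_C_of_ne (c : K) {k : ℤ} (hk : k ≠ 0) :
    (HahnSeries.C c : LaurentSeries K).coeff k = 0 := by
  rw [HahnSeries.C_apply, HahnSeries.coeff_single_of_ne hk]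

/-- the basic product rule -/
theorem LowAt.mul_aux {n m : ℤ} {x y : LaurentSeries K} (hx : LowAt n x) (hy : LowAt m y) :
    LowAt (n + m) (x * y) ∧ (x * y).coeff (n + m) = x.coeff n * y.coeff m := by
  have key : ∀ a : ℤ, ∀ ij ∈ Finset.antidiagonal x.isPWO_support y.isPWO_support a,
      n ≤ ij.1 ∧ m ≤ ij.2 ∧ ij.1 + ij.2 = a := by
    intro a ij hij
    rw [Finset.mem_antidiagonal] at hij
    obtain ⟨h1, h2, h3⟩ := hij
    refine ⟨?_, ?_, h3⟩
    · by_contra hlt
      exact h1 (hx _ (not_le.mp hlt))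
    · by_contra hlt
      exact h2 (hy _ (not_le.mp hlt))
  constructor
  · intro k hk
    rw [HahnSeries.coeff_mul]
    refine Finset.sum_eq_zero fun ij hij => ?_
    obtain ⟨h1, h2, h3⟩ := key k ij hij
    omega
  · rw [HahnSeries.coeff_mul]
    rw [Finset.sum_eq_single (n, m)]
    · intro ij hij hne
      obtain ⟨h1, h2, h3⟩ := key _ ij hij
      exfalso
      apply hne
      have e1 : ij.1 = n := by omega
      have e2 : ij.2 = m := by omega
      exact Prod.ext e1 e2
    · intro hnot
      rw [Finset.mem_antidiagonal] at hnot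
      by_cases h1 : x.coeff n = 0
      · rw [h1, zero_mul]
      · by_cases h2 : y.coeff m = 0
        · rw [h2, mul_zero]
        · exact absurd ⟨h1, h2, rfl⟩ hnot

theorem LowAt.mul {n m : ℤ} {x y : LaurentSeries K} (hx : LowAt n x) (hy : LowAt m y) :
    LowAt (n + m) (x * y) := (hx.mul_aux hy).1

theorem LowAt.coeff_mul {n m : ℤ} {x y : LaurentSeries K} (hx : LowAt n x) (hy : LowAt m y) :
    (x * y).coeff (n + m) = x.coeff n * y.coeff m := (hx.mul_aux hy).2

theorem LowAt.C_mul {n : ℤ} {x : LaurentSeries K} (c : K) (hx : LowAt n x) :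
    LowAt n (HahnSeries.C c * x) := by
  have := (lowAt_C c).mul hx
  rwa [zero_add] at this

theorem LowAt.pow {n : ℤ} {x : LaurentSeries K} (hx : LowAt n x) (e : ℕ) :
    LowAt (e * n) (x ^ e) := by
  induction e with
  | zero =>
    intro k hk
    have hk' : k ≠ 0 := by
      have : k < 0 := by simpa using hk
      exact ne_of_lt this
    rw [pow_zero, show (1 : LaurentSeries K) = HahnSeries.C 1 from (map_one _).symm,
      coeff_C_of_ne _ hk']
  | succ e ih =>
    have := ih.mul hx
    rw [pow_succ]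
    convert this using 1
    push_cast; ring

theorem LowAt.coeff_pow {n : ℤ} {x : LaurentSeries K} (hx : LowAt n x) (e : ℕ) :
    (x ^ e).coeff (e * n) = x.coeff n ^ e := by
  induction e with
  | zero =>
    rw [pow_zero, pow_zero, show (1 : LaurentSeries K) = HahnSeries.C 1 from (map_one _).symm,
      HahnSeries.C_apply]
    simp
  | succ e ih =>
    have := (hx.pow e).coeff_mul hx
    rw [pow_succ, pow_succ, ← ih, ← this]
    congr 1
    push_cast; ring

/-! ### `j` and `j(q^M)` -/

theorem lowAt_jq : LowAt (-1) (jqModC K) := fun _ hk => coeff_jqModC_of_lt K hk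

theorem coeff_jq : (jqModC K).coeff (-1) = 1 := coeff_jqModC_neg_one K

theorem lowAt_jqM (M : ℕ) [NeZero M] : LowAt (-(M : ℤ)) (qExpand K M (jqModC K)) := by
  intro k hk
  by_cases hd : (M : ℤ) ∣ k
  · obtain ⟨c, rfl⟩ := hd
    rw [qExpand_coeff_mul]
    apply coeff_jqModC_of_lt
    have hM : (0 : ℤ) < M := by exact_mod_cast Nat.pos_of_ne_zero (NeZero.ne M)
    by_contra hc
    have hc' : -1 ≤ c := not_lt.mp hc
    have : (M : ℤ) * (-1) ≤ M * c := mul_le_mul_of_nonneg_left hc' hM.le
    linarith
  · exact qExpand_coeff_of_not_dvd M _ hd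

theorem coeff_jqM (M : ℕ) [NeZero M] : (qExpand K M (jqModC K)).coeff (-(M : ℤ)) = 1 := by
  have := qExpand_coeff_mul (R := K) M (jqModC K) (-1)
  rw [coeff_jq] at this
  rw [← this]
  congr 1
  ring

end Fermat.Agent.GJ.HauptMem
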