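import Mathlib
import Fermat.Prelude.Def_ModularCurve_X0ModL
import Fermat.Agent.GJ.HauptMem.Lead

/-!
# GATE-J / J1-HAUPT-MEM : the Hauptmodul of `X₀(3)` lies in the level-3 function field

Hypothesis-driven: `t : LaurentSeries K` is ANY nonzero series satisfying
`j t³ = (t+27)(t+243)³` and `j(q³) t = (t+27)(t+3)³`.  Then `t · den3 = num3` with
`den3 = j²j₃² - 1476 (j²j₃ + j j₃²) + 347760 (j² + j₃²) - 1461408480 j j₃
        - 2707292160000 (j + j₃) + 134217728000000000`
(symmetric under the Fricke involution), whose `q⁻⁸`-coefficient is `1`: nonzero over EVERY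
field `K`.
-/

set_option autoImplicit false

noncomputable section

namespace Fermat.Agent.GJ.HauptMem

open HahnSeries ModularCurve IntermediateField

variable (K : Type*) [Field K]

/-- the denominator of the level 3 elimination -/
def den3 : LaurentSeries K :=
  jqModC K ^ 2 * qExpand K 3 (jqModC K) ^ 2
    - HahnSeries.C (1476 : K) *
        (jqModC K ^ 2 * qExpand K 3 (jqModC K) + jqModC K * qExpand K 3 (jqModC K) ^ 2)
    + HahnSeries.C (347760 : K) * (jqModC K ^ 2 + qExpand K 3 (jqModC K) ^ 2)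
    - HahnSeries.C (1461408480 : K) * (jqModC K * qExpand K 3 (jqModC K))
    - HahnSeries.C (2707292160000 : K) * (jqModC K + qExpand K 3 (jqModC K))
    + HahnSeries.C (134217728000000000 : K)

/-- the numerator of the level 3 elimination -/
def num3 : LaurentSeries K :=
  qExpand K 3 (jqModC K) ^ 3
    - HahnSeries.C (103456080 : K) * qExpand K 3 (jqModC K) ^ 2
    + HahnSeries.C (276373831680000 : K) * qExpand K 3 (jqModC K)
    + HahnSeries.C (729 : K) * (jqModC K ^ 2 * qExpand K 3 (jqModC K))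
    + HahnSeries.C (196830 : K) * (jqModC K * qExpand K 3 (jqModC K) ^ 2)
    + HahnSeries.C (18821147040 : K) * (jqModC K * qExpand K 3 (jqModC K))
    - HahnSeries.C (524880 : K) * jqModC K ^ 2
    + HahnSeries.C (14229831680000 : K) * jqModC K
    - HahnSeries.C (3623878656000000000 : K)

theorem lowAt_jq3 : LowAt (-3) (qExpand K 3 (jqModC K)) := by
  simpa using lowAt_jqM (K := K) 3

theorem coeff_jq3 : (qExpand K 3 (jqModC K)).coeff (-3) = 1 := by
  simpa using coeff_jqM (K := K) 3

theorem lowAt_jq_sq : LowAt (-2) (jqModC K ^ 2) := by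
  simpa using (lowAt_jq (K := K)).pow 2

theorem coeff_jq_sq : (jqModC K ^ 2).coeff (-2) = 1 := by
  have := (lowAt_jq (K := K)).coeff_pow 2
  rw [coeff_jq, one_pow] at this
  simpa using this

theorem lowAt_jq3_sq : LowAt (-6) (qExpand K 3 (jqModC K) ^ 2) := by
  have := (lowAt_jq3 K).pow 2
  norm_num at this
  exact this

theorem coeff_jq3_sq : (qExpand K 3 (jqModC K) ^ 2).coeff (-6) = 1 := by
  have := (lowAt_jq3 K).coeff_pow 2
  rw [coeff_jq3 K, one_pow] at this
  norm_num at this
  exact this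

theorem coeff_den3 : (den3 K).coeff (-8) = 1 := by
  have h1 : (jqModC K ^ 2 * qExpand K 3 (jqModC K) ^ 2).coeff (-8) = 1 := by
    have := (lowAt_jq_sq K).coeff_mul (lowAt_jq3_sq K)
    rw [coeff_jq_sq K, coeff_jq3_sq K, mul_one] at this
    rw [← this]; norm_num
  have a1 : LowAt (-7) (jqModC K ^ 2 * qExpand K 3 (jqModC K)) :=
    ((lowAt_jq_sq K).mul (lowAt_jq3 K)).mono (by norm_num)
  have a2 : LowAt (-7) (jqModC K * qExpand K 3 (jqModC K) ^ 2) :=
    ((lowAt_jq (K := K)).mul (lowAt_jq3_sq K)).mono (by norm_num)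
  have a3 : LowAt (-7) (jqModC K ^ 2) := (lowAt_jq_sq K).mono (by norm_num)
  have a4 : LowAt (-7) (qExpand K 3 (jqModC K) ^ 2) := (lowAt_jq3_sq K).mono (by norm_num)
  have a5 : LowAt (-7) (jqModC K * qExpand K 3 (jqModC K)) :=
    ((lowAt_jq (K := K)).mul (lowAt_jq3 K)).mono (by norm_num)
  have a6 : LowAt (-7) (jqModC K) := (lowAt_jq (K := K)).mono (by norm_num)
  have a7 : LowAt (-7) (qExpand K 3 (jqModC K)) := (lowAt_jq3 K).mono (by norm_num)
  have h2 := (a1.add a2).C_mul (1476 : K)
  have h3 := (a3.add a4).C_mul (347760 : K)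
  have h4 := a5.C_mul (1461408480 : K)
  have h5 := (a6.add a7).C_mul (2707292160000 : K)
  rw [den3, HahnSeries.coeff_add, HahnSeries.coeff_sub, HahnSeries.coeff_sub, HahnSeries.coeff_add,
    HahnSeries.coeff_sub, h1, h2 (-8) (by norm_num), h3 (-8) (by norm_num), h4 (-8) (by norm_num),
    h5 (-8) (by norm_num), coeff_C_of_ne _ (by norm_num)]
  ring

theorem den3_ne_zero : den3 K ≠ 0 := fun h => by
  have := coeff_den3 K
  rw [h, HahnSeries.coeff_zero] at this
  exact zero_ne_one this

theorem C_mem_full (N : ℕ) (c : K) :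
    (HahnSeries.C c : LaurentSeries K) ∈ modularFunctionFieldFullC K N := by
  have := (modularFunctionFieldFullC K N).algebraMap_mem c
  rwa [algebraMap_laurentSeries_eq_single] at this

theorem den3_mem : den3 K ∈ modularFunctionFieldFullC K 3 := by
  have hj := jqModC_mem_full K 3
  have hj3 := jqModCd_mem_full K 3 (d := 3) dvd_rfl
  have hC := C_mem_full K 3
  unfold den3
  exact add_mem (sub_mem (sub_mem (add_mem (sub_mem (mul_mem (pow_mem hj 2) (pow_mem hj3 2))
    (mul_mem (hC _) (add_mem (mul_mem (pow_mem hj 2) hj3) (mul_mem hj (pow_mem hj3 2)))))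
    (mul_mem (hC _) (add_mem (pow_mem hj 2) (pow_mem hj3 2))))
    (mul_mem (hC _) (mul_mem hj hj3))) (mul_mem (hC _) (add_mem hj hj3))) (hC _)

theorem num3_mem : num3 K ∈ modularFunctionFieldFullC K 3 := by
  have hj := jqModC_mem_full K 3
  have hj3 := jqModCd_mem_full K 3 (d := 3) dvd_rfl
  have hC := C_mem_full K 3
  unfold num3
  exact sub_mem (add_mem (sub_mem (add_mem (add_mem (add_mem (add_mem (sub_mem (pow_mem hj3 3)
    (mul_mem (hC _) (pow_mem hj3 2))) (mul_mem (hC _) hj3))
    (mul_mem (hC _) (mul_mem (pow_mem hj 2) hj3))) (mul_mem (hC _) (mul_mem hj (pow_mem hj3 2))))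
    (mul_mem (hC _) (mul_mem hj hj3))) (mul_mem (hC _) (pow_mem hj 2))) (mul_mem (hC _) hj)) (hC _)

variable {K}

/-- the elimination identity at level 3 -/
theorem mul_den3_eq_num3 (t : LaurentSeries K) (ht : t ≠ 0)
    (h1 : jqModC K * t ^ 3 = (t + 27) * (t + 243) ^ 3)
    (h3 : qExpand K 3 (jqModC K) * t = (t + 27) * (t + 3) ^ 3) :
    t * den3 K = num3 K := by
  have e1 : jqModC K = (t + 27) * (t + 243) ^ 3 / t ^ 3 := by
    rw [eq_div_iff (pow_ne_zero 3 ht)]; exact h1
  have e3 : qExpand K 3 (jqModC K) = (t + 27) * (t + 3) ^ 3 / t := by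
    rw [eq_div_iff ht]; exact h3
  rw [den3, num3, e3, e1]
  simp only [map_ofNat]
  field_simp
  ring

/-- **Membership at level 3**, any field `K`. -/
theorem mem_full_three (t : LaurentSeries K) (ht : t ≠ 0)
    (h1 : jqModC K * t ^ 3 = (t + 27) * (t + 243) ^ 3)
    (h3 : qExpand K 3 (jqModC K) * t = (t + 27) * (t + 3) ^ 3) :
    t ∈ modularFunctionFieldFullC K 3 := by
  have h := mul_den3_eq_num3 t ht h1 h3
  have e : t = num3 K / den3 K := by
    rw [eq_div_iff (den3_ne_zero K)]; exact h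
  rw [e]
  exact div_mem (num3_mem K) (den3_mem K)

end Fermat.Agent.GJ.HauptMem
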