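import Mathlib
import Fermat.Prelude.Def_ModularCurve_X0ModL
import Fermat.Agent.GJ.HauptMem.Lead

/-!
# GATE-J / J1-HAUPT-MEM : the Hauptmodul of `X₀(2)` lies in the level-2 function field

Hypothesis-driven: `t : LaurentSeries K` is ANY nonzero series satisfying
`j t² = (t+256)³` and `j(q²) t = (t+16)³`.  Then
`t · (j j₂ - 720 (j + j₂) - 16250625) = j₂² + 4095 j + 195120 j₂ + 660960000`
and the bracket has `q⁻³`-coefficient `1`, so it is nonzero over EVERY field `K`
(no restriction on the characteristic).
-/

set_option autoImplicit false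

noncomputable section

namespace Fermat.Agent.GJ.HauptMem

open HahnSeries ModularCurve IntermediateField

variable (K : Type*) [Field K]

/-- the denominator of the level 2 elimination -/
def den2 : LaurentSeries K :=
  jqModC K * qExpand K 2 (jqModC K)
    - HahnSeries.C (720 : K) * (jqModC K + qExpand K 2 (jqModC K)) - HahnSeries.C (16250625 : K)

/-- the numerator of the level 2 elimination -/
def num2 : LaurentSeries K :=
  qExpand K 2 (jqModC K) ^ 2 + HahnSeries.C (4095 : K) * jqModC K
    + HahnSeries.C (195120 : K) * qExpand K 2 (jqModC K) + HahnSeries.C (660960000 : K)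

theorem lowAt_jq2 : LowAt (-2) (qExpand K 2 (jqModC K)) := by
  simpa using lowAt_jqM (K := K) 2

theorem coeff_jq2 : (qExpand K 2 (jqModC K)).coeff (-2) = 1 := by
  simpa using coeff_jqM (K := K) 2

theorem coeff_den2 : (den2 K).coeff (-3) = 1 := by
  have h1 : (jqModC K * qExpand K 2 (jqModC K)).coeff (-3) = 1 := by
    have := (lowAt_jq (K := K)).coeff_mul (lowAt_jq2 K)
    rw [coeff_jq, coeff_jq2 K, mul_one] at this
    rw [← this]; norm_num
  have h2 : LowAt (-2) (HahnSeries.C (720 : K) * (jqModC K + qExpand K 2 (jqModC K))) :=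
    LowAt.C_mul _ (((lowAt_jq (K := K)).mono (by norm_num)).add (lowAt_jq2 K))
  rw [den2, HahnSeries.coeff_sub, HahnSeries.coeff_sub, h1, h2 (-3) (by norm_num),
    coeff_C_of_ne _ (by norm_num), sub_zero, sub_zero]

theorem den2_ne_zero : den2 K ≠ 0 := fun h => by
  have := coeff_den2 K
  rw [h, HahnSeries.coeff_zero] at this
  exact zero_ne_one this

theorem den2_mem : den2 K ∈ modularFunctionFieldFullC K 2 := by
  have hj := jqModC_mem_full K 2
  have hj2 := jqModCd_mem_full K 2 (d := 2) dvd_rfl
  have hC : ∀ c : K, (HahnSeries.C c : LaurentSeries K) ∈ modularFunctionFieldFullC K 2 :=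
    fun c => by
      have := (modularFunctionFieldFullC K 2).algebraMap_mem c
      rwa [algebraMap_laurentSeries_eq_single] at this
  exact sub_mem (sub_mem (mul_mem hj hj2) (mul_mem (hC _) (add_mem hj hj2))) (hC _)

theorem num2_mem : num2 K ∈ modularFunctionFieldFullC K 2 := by
  have hj := jqModC_mem_full K 2
  have hj2 := jqModCd_mem_full K 2 (d := 2) dvd_rfl
  have hC : ∀ c : K, (HahnSeries.C c : LaurentSeries K) ∈ modularFunctionFieldFullC K 2 :=
    fun c => by
      have := (modularFunctionFieldFullC K 2).algebraMap_mem c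
      rwa [algebraMap_laurentSeries_eq_single] at this
  exact add_mem (add_mem (add_mem (pow_mem hj2 2) (mul_mem (hC _) hj)) (mul_mem (hC _) hj2)) (hC _)

variable {K}

/-- the elimination identity at level 2 -/
theorem mul_den2_eq_num2 (t : LaurentSeries K) (ht : t ≠ 0)
    (h1 : jqModC K * t ^ 2 = (t + 256) ^ 3)
    (h2 : qExpand K 2 (jqModC K) * t = (t + 16) ^ 3) :
    t * den2 K = num2 K := by
  have e1 : jqModC K = (t + 256) ^ 3 / t ^ 2 := by
    rw [eq_div_iff (pow_ne_zero 2 ht)]; exact h1
  have e2 : qExpand K 2 (jqModC K) = (t + 16) ^ 3 / t := by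
    rw [eq_div_iff ht]; exact h2
  rw [den2, num2, e2, e1]
  simp only [map_ofNat]
  field_simp
  ring

/-- **Membership at level 2**, any field `K`. -/
theorem mem_full_two (t : LaurentSeries K) (ht : t ≠ 0)
    (h1 : jqModC K * t ^ 2 = (t + 256) ^ 3)
    (h2 : qExpand K 2 (jqModC K) * t = (t + 16) ^ 3) :
    t ∈ modularFunctionFieldFullC K 2 := by
  have h := mul_den2_eq_num2 t ht h1 h2
  have e : t = num2 K / den2 K := by
    rw [eq_div_iff (den2_ne_zero K)]; exact h
  rw [e]
  exact div_mem (num2_mem K) (den2_mem K)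

end Fermat.Agent.GJ.HauptMem
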