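import Mathlib
import Fermat.Prelude.Def_ModularCurve_X0ModL
import Fermat.Agent.GJ.HauptMem.Two
import Fermat.Agent.GJ.HauptMem.Three

/-!
# GATE-J / J1-HAUPT-MEM : `K(t) = modularFunctionFieldFullC K M` for `M = 2, 3`

and membership of `t` in every level divisible by `M`, plus the `j - 1728` factorizations.
-/

set_option autoImplicit false

noncomputable section

namespace Fermat.Agent.GJ.HauptMem

open HahnSeries ModularCurve IntermediateField

variable {K : Type*} [Field K]

/-- `t ∈ F_{N'}` for every level `N'` divisible by `2` (the `t ∈ F'` of design 1187(1)). -/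
theorem mem_full_of_two_dvd (t : LaurentSeries K) (ht : t ≠ 0)
    (h1 : jqModC K * t ^ 2 = (t + 256) ^ 3)
    (h2 : qExpand K 2 (jqModC K) * t = (t + 16) ^ 3) (N : ℕ) [NeZero N] (hN : 2 ∣ N) :
    t ∈ modularFunctionFieldFullC K N :=
  full_degeneracyC_le K hN (mem_full_two t ht h1 h2)

/-- `t ∈ F_{N'}` for every level `N'` divisible by `3`. -/
theorem mem_full_of_three_dvd (t : LaurentSeries K) (ht : t ≠ 0)
    (h1 : jqModC K * t ^ 3 = (t + 27) * (t + 243) ^ 3)
    (h3 : qExpand K 3 (jqModC K) * t = (t + 27) * (t + 3) ^ 3) (N : ℕ) [NeZero N] (hN : 3 ∣ N) :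
    t ∈ modularFunctionFieldFullC K N :=
  full_degeneracyC_le K hN (mem_full_three t ht h1 h3)

/-- `K(t₂) = F₂`. -/
theorem adjoin_eq_full_two (t : LaurentSeries K) (ht : t ≠ 0)
    (h1 : jqModC K * t ^ 2 = (t + 256) ^ 3)
    (h2 : qExpand K 2 (jqModC K) * t = (t + 16) ^ 3) :
    IntermediateField.adjoin K {t} = modularFunctionFieldFullC K 2 := by
  apply le_antisymm
  · rw [adjoin_le_iff, Set.singleton_subset_iff]
    exact mem_full_two t ht h1 h2
  · rw [modularFunctionFieldFullC, adjoin_le_iff]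
    rintro x ⟨d, hne, hdvd, rfl⟩
    have htm : t ∈ IntermediateField.adjoin K {t} := mem_adjoin_simple_self K t
    have h256 : (256 : LaurentSeries K) ∈ IntermediateField.adjoin K {t} := ofNat_mem _ 256
    have h16 : (16 : LaurentSeries K) ∈ IntermediateField.adjoin K {t} := ofNat_mem _ 16
    rcases (Nat.dvd_prime Nat.prime_two).mp hdvd with rfl | rfl
    · have e1 : qExpand K 1 (jqModC K) = (t + 256) ^ 3 / t ^ 2 := by
        rw [qExpand_one_apply, eq_div_iff (pow_ne_zero 2 ht)]; exact h1
      rw [SetLike.mem_coe, e1]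
      exact div_mem (pow_mem (add_mem htm h256) 3) (pow_mem htm 2)
    · have e2 : qExpand K 2 (jqModC K) = (t + 16) ^ 3 / t := by
        rw [eq_div_iff ht]; exact h2
      rw [SetLike.mem_coe, e2]
      exact div_mem (pow_mem (add_mem htm h16) 3) htm

/-- `K(t₃) = F₃`. -/
theorem adjoin_eq_full_three (t : LaurentSeries K) (ht : t ≠ 0)
    (h1 : jqModC K * t ^ 3 = (t + 27) * (t + 243) ^ 3)
    (h3 : qExpand K 3 (jqModC K) * t = (t + 27) * (t + 3) ^ 3) :
    IntermediateField.adjoin K {t} = modularFunctionFieldFullC K 3 := by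
  apply le_antisymm
  · rw [adjoin_le_iff, Set.singleton_subset_iff]
    exact mem_full_three t ht h1 h3
  · rw [modularFunctionFieldFullC, adjoin_le_iff]
    rintro x ⟨d, hne, hdvd, rfl⟩
    have htm : t ∈ IntermediateField.adjoin K {t} := mem_adjoin_simple_self K t
    have h27 : (27 : LaurentSeries K) ∈ IntermediateField.adjoin K {t} := ofNat_mem _ 27
    have h243 : (243 : LaurentSeries K) ∈ IntermediateField.adjoin K {t} := ofNat_mem _ 243
    have h3' : (3 : LaurentSeries K) ∈ IntermediateField.adjoin K {t} := ofNat_mem _ 3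
    rcases (Nat.dvd_prime Nat.prime_three).mp hdvd with rfl | rfl
    · have e1 : qExpand K 1 (jqModC K) = (t + 27) * (t + 243) ^ 3 / t ^ 3 := by
        rw [qExpand_one_apply, eq_div_iff (pow_ne_zero 3 ht)]; exact h1
      rw [SetLike.mem_coe, e1]
      exact div_mem (mul_mem (add_mem htm h27) (pow_mem (add_mem htm h243) 3)) (pow_mem htm 3)
    · have e3 : qExpand K 3 (jqModC K) = (t + 27) * (t + 3) ^ 3 / t := by
        rw [eq_div_iff ht]; exact h3
      rw [SetLike.mem_coe, e3]
      exact div_mem (mul_mem (add_mem htm h27) (pow_mem (add_mem htm h3') 3)) htm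

/-! ### the `j - 1728` factorizations (branch data over `j = 1728`), valid in any commutative ring -/

theorem sub_1728_two {R : Type*} [CommRing R] (j t : R) (h1 : j * t ^ 2 = (t + 256) ^ 3) :
    (j - 1728) * t ^ 2 = (t + 64) * (t - 512) ^ 2 := by
  linear_combination h1

theorem sub_1728_three {R : Type*} [CommRing R] (j t : R)
    (h1 : j * t ^ 3 = (t + 27) * (t + 243) ^ 3) :
    (j - 1728) * t ^ 3 = (t ^ 2 - 486 * t - 19683) ^ 2 := by
  linear_combination h1

/-- level 2, the second curve `j(q²)`: `j₂ - 1728 = (t-8)²(t+64)/t`... as an identity -/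
theorem sub_1728_two' {R : Type*} [CommRing R] (j2 t : R) (h2 : j2 * t = (t + 16) ^ 3) :
    (j2 - 1728) * t = (t + 64) * (t - 8) ^ 2 := by
  linear_combination h2

theorem sub_1728_three' {R : Type*} [CommRing R] (j3 t : R)
    (h3 : j3 * t = (t + 27) * (t + 3) ^ 3) :
    (j3 - 1728) * t = (t ^ 2 + 18 * t - 27) ^ 2 := by
  linear_combination h3

end Fermat.Agent.GJ.HauptMem
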